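import Fermat.Prelude.Def_FLTPrelim_FreyPackage
import Fermat.Prelude.Def_FLTPrelim_GaloisRep
import Fermat.Prelude.Def_FLTPrelim_CofixedLine

/-!
# GLUE09 (row S15+S12+S09, piece owner helper122)

`S09` (Mazur irreducibility for the Frey curve) follows formally from the four frozen statements
`S10` (p ∈ {5, 7, 13}), `S11` (p = 11), `S12` (p ≥ 17) and `S13` (reducible ⇒ cofixed line).
The hypotheses below have exactly the types of the frozen statements, so the final `S09.lean` is

    theorem result (P : FreyPackage) : GaloisRepIsIrreducible (K := AlgebraicClosure ℚ) ℚ P.freyCurve P.p :=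
      H122.irreducible_of_S10_S11_S12_S13 S10.result S11.result S12.result S13.result P
-/

set_option autoImplicit false
open WeierstrassCurve WeierstrassCurve.Affine WeierstrassCurve.Affine.Point
open FreyPackage

namespace Fermat.Agent.S09.H122

/-- A prime `p` with `5 ≤ p < 17` is one of `5, 7, 11, 13`. -/
theorem prime_cases_lt_seventeen {p : ℕ} (hp : p.Prime) (h5 : 5 ≤ p) (h17 : p < 17) :
    p = 5 ∨ p = 7 ∨ p = 11 ∨ p = 13 := by
  interval_cases p <;> first | omega | (exfalso; revert hp; decide)

/-- GLUE09: the Frey representation is irreducible, given the four frozen statements. -/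
theorem irreducible_of_S10_S11_S12_S13
    (h10 : ∀ P : FreyPackage, (P.p = 5 ∨ P.p = 7 ∨ P.p = 13) →
      ¬ HasGaloisStableCofixedLine (K := AlgebraicClosure ℚ) ℚ P.freyCurve P.p)
    (h11 : ∀ P : FreyPackage, P.p = 11 →
      ¬ HasGaloisStableCofixedLine (K := AlgebraicClosure ℚ) ℚ P.freyCurve P.p)
    (h12 : ∀ P : FreyPackage, 17 ≤ P.p →
      ¬ HasGaloisStableCofixedLine (K := AlgebraicClosure ℚ) ℚ P.freyCurve P.p)
    (h13 : ∀ P : FreyPackage,
      ¬ GaloisRepIsIrreducible (K := AlgebraicClosure ℚ) ℚ P.freyCurve P.p →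
      HasGaloisStableCofixedLine (K := AlgebraicClosure ℚ) ℚ P.freyCurve P.p)
    (P : FreyPackage) :
    GaloisRepIsIrreducible (K := AlgebraicClosure ℚ) ℚ P.freyCurve P.p := by
  by_contra hred
  have hline := h13 P hred
  by_cases h17 : 17 ≤ P.p
  · exact h12 P h17 hline
  · rcases prime_cases_lt_seventeen P.pp P.hp5 (Nat.lt_of_not_le h17) with h | h | h | h
    · exact h10 P (Or.inl h) hline
    · exact h10 P (Or.inr (Or.inl h)) hline
    · exact h11 P h hline
    · exact h10 P (Or.inr (Or.inr h)) hline

/-- Variant used while `S12` is open: `S09` restricted to `p < 17` needs only the landed statements. -/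
theorem irreducible_of_lt_seventeen
    (h10 : ∀ P : FreyPackage, (P.p = 5 ∨ P.p = 7 ∨ P.p = 13) →
      ¬ HasGaloisStableCofixedLine (K := AlgebraicClosure ℚ) ℚ P.freyCurve P.p)
    (h11 : ∀ P : FreyPackage, P.p = 11 →
      ¬ HasGaloisStableCofixedLine (K := AlgebraicClosure ℚ) ℚ P.freyCurve P.p)
    (h13 : ∀ P : FreyPackage,
      ¬ GaloisRepIsIrreducible (K := AlgebraicClosure ℚ) ℚ P.freyCurve P.p →
      HasGaloisStableCofixedLine (K := AlgebraicClosure ℚ) ℚ P.freyCurve P.p)
    (P : FreyPackage) (hlt : P.p < 17) :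
    GaloisRepIsIrreducible (K := AlgebraicClosure ℚ) ℚ P.freyCurve P.p := by
  by_contra hred
  have hline := h13 P hred
  rcases prime_cases_lt_seventeen P.pp P.hp5 hlt with h | h | h | h
  · exact h10 P (Or.inl h) hline
  · exact h10 P (Or.inr (Or.inl h)) hline
  · exact h11 P h hline
  · exact h10 P (Or.inr (Or.inr h)) hline

end Fermat.Agent.S09.H122
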